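/-
Program C (S55), package C4, leaf (SHR) of helper26's `H26/LocalInvAssembly.lean`:
`shapiroResStatement : H26.ShapiroResStatement` — the Shapiro restriction of a level 2-cocycle
with values in `k[G ⧸ H]` is a level-constant 2-cocycle of `H` with trivial coefficients.
(helper17; uses helper41's degree-2 dictionary `H41/Bridge2Core.lean`.)
-/
import Fermat.Agent.S55.H26.LocalInvAssembly
import Fermat.Agent.S55.H41.Bridge2Core

set_option autoImplicit false

open CategoryTheory groupCohomology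

noncomputable section

namespace Fermat.Agent.S55.H17

open Fermat.Agent.S55.H49 Fermat.Agent.S55.H26

section

variable {G : Type} [Group G] {k : Type} [Field k]

/-- The coefficient at the coset `H` is invariant under `H`. -/
theorem permCoeff_ρ_of_mem (H : Subgroup G) (h : G) (hh : h ∈ H) (v : permRep k H) :
    permCoeff H ((permRep k H).ρ h v) ((1 : G) : G ⧸ H) = permCoeff H v ((1 : G) : G ⧸ H) := by
  have h1 : h⁻¹ • ((1 : G) : G ⧸ H) = ((1 : G) : G ⧸ H) := by
    show ((h⁻¹ * 1 : G) : G ⧸ H) = ((1 : G) : G ⧸ H)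
    rw [QuotientGroup.eq]
    simpa using hh
  have h2 := Representation.coeff_ofMulAction (k := k) (G := G) (H := G ⧸ H) h v
    ((1 : G) : G ⧸ H)
  rw [h1] at h2
  exact h2

theorem permCoeff_sub (H : Subgroup G) (v w : permRep k H) (x : G ⧸ H) :
    permCoeff H (v - w) x = permCoeff H v x - permCoeff H w x := by
  unfold permCoeff
  rw [map_sub]
  rfl

theorem permCoeff_add (H : Subgroup G) (v w : permRep k H) (x : G ⧸ H) :
    permCoeff H (v + w) x = permCoeff H v x + permCoeff H w x := by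
  unfold permCoeff
  rw [map_add]
  rfl

theorem permCoeff_zero (H : Subgroup G) (x : G ⧸ H) :
    permCoeff H (0 : permRep k H) x = 0 := by
  unfold permCoeff
  rw [map_zero]
  rfl

end

/-- **Leaf (SHR)**. -/
theorem shapiroResStatement : ShapiroResStatement := by
  intro G _ k _ D H z
  have hlc : IsLC D (permRep k H) (lcVal z) := H41.isLC_lcValC D _ z.1
  have hcyc : (inhomogeneousCochains.d (permRep k H) 2).hom (lcVal z) = 0 :=
    (H41.mem_cyc_lc_iff D _ z.1).1 z.2
  refine ⟨?_, ?_⟩
  · obtain ⟨F, hF, _, h, _⟩ := hlc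
    refine ⟨F, hF, fun h₁ h₂ n₁ n₂ hn₁ hn₂ => ?_⟩
    show permCoeff H (lcVal z ![((h₁ * n₁ : H) : G), ((h₂ * n₂ : H) : G)]) _ =
      permCoeff H (lcVal z ![(h₁ : G), (h₂ : G)]) _
    have e : (![((h₁ * n₁ : H) : G), ((h₂ * n₂ : H) : G)] : Fin 2 → G) =
        ![(h₁ : G), (h₂ : G)] * ![(n₁ : G), (n₂ : G)] := by
      funext i
      fin_cases i <;> rfl
    rw [e, h _ _ (fun i => by
      fin_cases i
      · exact hn₁
      · exact hn₂)]
  · intro h₁ h₂ h₃
    have h0 := congrFun hcyc ![(h₁ : G), (h₂ : G), (h₃ : G)]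
    rw [← H41.toFin2_vec (lcVal z), H41.d_toFin2_apply] at h0
    have h0' : (permRep k H).ρ (h₁ : G) (lcVal z ![(h₂ : G), (h₃ : G)])
        - lcVal z ![(h₁ : G) * (h₂ : G), (h₃ : G)] + lcVal z ![(h₁ : G), (h₂ : G) * (h₃ : G)]
        - lcVal z ![(h₁ : G), (h₂ : G)] = 0 := h0
    have h1 := congrArg (fun v : permRep k H => permCoeff H v ((1 : G) : G ⧸ H)) h0'
    simp only [] at h1
    rw [permCoeff_sub, permCoeff_add, permCoeff_sub, permCoeff_ρ_of_mem H _ h₁.2,
      permCoeff_zero] at h1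
    exact h1

end Fermat.Agent.S55.H17
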