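import Fermat.Agent.S55.H17.IsoLocal

/-!
# S55 / C9a, leaf L5 (helper17): `IsoLocalStatement` in the vocabulary of C4

* `c4_inputs`: at one prime `q ∈ S`, the exports of C4 (`H26`: `LocalInjOfCoresSurjLeaf`,
  `CoresSurjLeaf`, `LocalLevelsStatement`, `LocalInvTraceStatement`, `LocalInvInjStatement`,
  `IsLocalInv`) give the three local hypotheses of `isoLocalStatement_of_leaves`
  (`H26.Dloc q = H49.primeDatum S q` and `H26.chiLoc p q = χ ∘ loc_q` definitionally);
* `isoLocalStatement_of_bridge`: `IsoLocalStatement p S (chiRep p) inv` for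
  `inv q = invlc q ∘ eμ q`, `eμ q` a degree-2 local bridge (`H49.BridgeLocal2Statement`) of the
  coefficient module `𝔽_p(χ)` (`H26.mu (χ ∘ loc_q) = H62.chiLoc p S q` definitionally).
-/

set_option autoImplicit false

open CategoryTheory Module groupCohomology ExtCitation

noncomputable section

namespace Fermat.Agent.S55.H17

open Fermat.Agent.S55.H49 Fermat.Agent.S55.H26 Fermat.Agent.S55.H62 Fermat.Agent.S55.H87

variable {p : ℕ} [Fact p.Prime] {S : Finset Nat.Primes}

/-- The local hypotheses of `isoLocalStatement_of_leaves` at one prime, from the exports of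
C4. -/
theorem c4_inputs (q : ↥S) [Fact ((q.1 : ℕ)).Prime]
    (h1 : LocalInjOfCoresSurjLeaf) (h2 : CoresSurjLeaf)
    (hV : LocalLevelsStatement (q.1 : ℕ)) (hT : LocalInvTraceStatement p (q.1 : ℕ))
    (hI : LocalInvInjStatement p (q.1 : ℕ)) (ζ : PadicAlgCl (q.1 : ℕ)) (hζ : IsPrimitiveRoot ζ p)
    (invlc : Hlc (Dloc (q.1 : ℕ)) (mu (H26.chiLoc p (q.1 : ℕ))) 2 →ₗ[ZMod p] ZMod p)
    (hinvlc : IsLocalInv p (q.1 : ℕ) ζ invlc) :
    LocalInjStatement (primeDatum S q) ((cycloChar p).comp (primeLocalToGlobal q.1)) invlc ∧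
      (∃ z, invlc z ≠ 0) ∧ (primeDatum S q).HasNormalLevels := by
  refine ⟨localInj_of_leaves p (q.1 : ℕ) h1 h2 hV hT hI ζ hζ invlc hinvlc, ?_, hV.1⟩
  obtain ⟨F', -, -, hχ, z, hz⟩ := hT ζ hζ invlc hinvlc ⊥ (Dloc (q.1 : ℕ)).bot
  exact ⟨_, hz⟩

/-- **Leaf L5 of C9a for the invariants `inv q = invlc q ∘ eμ q`**, `eμ q` a degree-2 bridge
between the Prelude's local `H²` and level-constant cohomology for `𝔽_p(χ)`. -/
theorem isoLocalStatement_of_bridge
    (hND : LocalH1NondegLeaf) (hDim : IsoDimLeaf p S)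
    (invlc : ∀ q : ↥S,
      Hlc (primeDatum S q) (mu ((cycloChar p).comp (primeLocalToGlobal q.1))) 2 →ₗ[ZMod p] ZMod p)
    (hL : ∀ q : ↥S, LocalInjStatement (primeDatum S q)
      ((cycloChar p).comp (primeLocalToGlobal q.1)) (invlc q))
    (hne : ∀ q : ↥S, ∃ z, invlc q z ≠ 0)
    (hNorm : ∀ q : ↥S, (primeDatum S q).HasNormalLevels)
    (eμ : ∀ q : ↥S, continuousH2 (primeLocalToGlobal q.1)
        (mu ((cycloChar p).comp (primeLocalToGlobal q.1))) ≃ₗ[ZMod p]
      Hlc (primeDatum S q) (mu ((cycloChar p).comp (primeLocalToGlobal q.1))) 2)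
    (heμ : ∀ (q : ↥S) (c : ↥(levelCocycles₂ (primeLocalToGlobal q.1)
        (mu ((cycloChar p).comp (primeLocalToGlobal q.1)))))
      (z : cyc (lcComplex (primeDatum S q) (mu ((cycloChar p).comp (primeLocalToGlobal q.1)))) 2),
      (∀ g : Fin 2 → primeLocalGaloisGroup q.1, lcVal z g = c.1 (g 0, g 1)) →
        eμ q (continuousH2π _ _ c) = (cls _ 2).hom z) :
    IsoLocalStatement p S (chiRep p) (fun q => invlc q ∘ₗ (eμ q).toLinearMap) :=
  isoLocalStatement_of_leaves hND hDim invlc hL hne hNorm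
    (fun q => invlc q ∘ₗ (eμ q).toLinearMap)
    (fun q c z hz => congrArg (invlc q) (heμ q c z hz))

end Fermat.Agent.S55.H17

end
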