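/-
Program C (S55), package C10, leaf CD of Route R (helper12's `H12/CDDefs.lean`):
the two Mathlib-only leaves

* `fixedVectorStatement : H12.FixedVectorStatement`  (CD-a): a group acting on a nonzero finite
  `𝔽_p`-space through elements of `p`-power order has a nonzero fixed vector;
* `coindExactStatement p : H12.CoindExactStatement p`  (CD-b): coinduction from a subgroup is
  exact (elementwise form).

(helper17)
-/
import Fermat.Agent.S55.H12.CDDefs

set_option autoImplicit false

open CategoryTheory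

noncomputable section

namespace Fermat.Agent.S55.H17

open Fermat.Agent.S55.H12 Fermat.Agent.S55.H70

/-- (CD-a) -/
theorem fixedVectorStatement : FixedVectorStatement := by
  intro p _ H _ W _ _ _ _ ρ hρ
  -- the action of `H` on `W` through units of `End W`
  let ρ' : H →* (Module.End (ZMod p) W)ˣ := MonoidHom.toHomUnits ρ
  have hρ' : ∀ h : H, ((ρ' h : (Module.End (ZMod p) W)ˣ) : Module.End (ZMod p) W) = ρ h :=
    fun _ => rfl
  let P : Subgroup (Module.End (ZMod p) W)ˣ := ρ'.range
  have hP : IsPGroup p P := by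
    rintro ⟨_, ⟨h, rfl⟩⟩
    obtain ⟨j, hj⟩ := hρ h
    refine ⟨j, Subtype.ext (Units.ext ?_)⟩
    show ((ρ' h ^ p ^ j : (Module.End (ZMod p) W)ˣ) : Module.End (ZMod p) W) = 1
    rw [← map_pow, hρ', hj]
  -- `p` divides the cardinality of `W`
  obtain ⟨w₀, hw₀⟩ := exists_ne (0 : W)
  have hpw : p • w₀ = 0 := by
    have : ((p : ZMod p)) • w₀ = 0 := by rw [ZMod.natCast_self, zero_smul]
    rwa [Nat.cast_smul_eq_nsmul] at this
  have hdvd : p ∣ Nat.card W := by
    have h1 : addOrderOf w₀ ∣ p := addOrderOf_dvd_of_nsmul_eq_zero hpw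
    have h2 : addOrderOf w₀ ≠ 1 := by
      rw [Ne, AddMonoid.addOrderOf_eq_one_iff]; exact hw₀
    have h3 : addOrderOf w₀ = p :=
      ((Nat.dvd_prime (Fact.out : p.Prime)).1 h1).resolve_left h2
    rw [← h3]
    exact addOrderOf_dvd_natCard w₀
  have h0 : (0 : W) ∈ MulAction.fixedPoints P W := by
    rintro ⟨u, hu⟩
    show (u : Module.End (ZMod p) W) (0 : W) = 0
    exact map_zero _
  obtain ⟨b, hb, hb0⟩ := hP.exists_fixed_point_of_prime_dvd_card_of_fixed_point W hdvd h0
  refine ⟨b, hb0.symm, fun h => ?_⟩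
  exact hb ⟨ρ' h, h, rfl⟩

/-- (CD-b) -/
theorem coindExactStatement (p : ℕ) [Fact p.Prime] : CoindExactStatement p := by
  intro H A B C f g hf hgf hex hg
  refine ⟨?_, ?_, ?_, ?_⟩
  · intro x y hxy
    refine Subtype.ext (funext fun h => hf ?_)
    have := congrArg (fun z : Rep.coind H.subtype B => z.1 h) hxy
    exact this
  · intro x
    refine Subtype.ext (funext fun h => ?_)
    exact hgf (x.1 h)
  · intro y hy
    have hy' : ∀ h : GQ, g.hom (y.1 h) = 0 := fun h =>
      congrArg (fun z : Rep.coind H.subtype C => z.1 h) hy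
    choose x hx using fun h : GQ => hex (y.1 h) (hy' h)
    refine ⟨⟨x, fun s h => hf ?_⟩, Subtype.ext (funext fun h => hx h)⟩
    rw [hx, Rep.hom_comm_apply, hx]
    exact y.2 s h
  · have hepi : Epi g := (Rep.epi_iff_surjective g).2 hg
    have : Epi ((Rep.coindFunctor (ZMod p) H.subtype).map g) := inferInstance
    exact (Rep.epi_iff_surjective _).1 this

end Fermat.Agent.S55.H17
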