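/-
Program C (S55), C1-type tool wanted by C5 (LINV-INDEP), Mathlib only (helper17):
**inner automorphisms act trivially on `H²`.**

For `A : Rep k G` and `g : G` the pair `(x ↦ g x g⁻¹, a ↦ ρ(g⁻¹) a)` induces the identity of
`H²(G, A)`:  `map_conj_H2 : groupCohomology.map (conjHom g) (conjRep A g) 2 = 𝟙 _`.
Explicitly (`conj_sub_eq_d₁₂`): for a 2-cocycle `f`,
`ρ(g⁻¹) f(g x g⁻¹, g y g⁻¹) - f(x, y) = (d₁₂ h)(x, y)` with
`h x = ρ(g⁻¹) (f(g x g⁻¹, g) - f(g, x))`.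
-/
import Mathlib

set_option autoImplicit false

open CategoryTheory groupCohomology

noncomputable section

namespace Fermat.Agent.S55.H17

universe u

variable {k G : Type u} [CommRing k] [Group G]

/-- The inner automorphism `x ↦ g x g⁻¹`, as a monoid homomorphism. -/
def conjHom (g : G) : G →* G := (MulAut.conj g).toMonoidHom

@[simp] theorem conjHom_apply (g x : G) : conjHom g x = g * x * g⁻¹ := rfl

/-- `ρ(g⁻¹)`, as a morphism `Res(conj g) A ⟶ A`. -/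
def conjRep (A : Rep k G) (g : G) : Rep.res (conjHom g) A ⟶ A :=
  Rep.ofHom
    { toLinearMap := A.ρ g⁻¹
      isIntertwining' := fun x => by
        ext a
        show A.ρ g⁻¹ (A.ρ (g * x * g⁻¹) a) = A.ρ x (A.ρ g⁻¹ a)
        rw [← Module.End.mul_apply, ← map_mul, ← Module.End.mul_apply, ← map_mul]
        congr 2
        group }

@[simp] theorem conjRep_hom_apply (A : Rep k G) (g : G) (a : A) :
    (conjRep A g).hom a = A.ρ g⁻¹ a := rfl

/-- The explicit coboundary: conjugation moves a `2`-cocycle by `d₁₂ h`. -/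
theorem conj_sub_eq_d₁₂ (A : Rep k G) (g : G) (f : cocycles₂ A) (x y : G) :
    A.ρ g⁻¹ (f (g * x * g⁻¹, g * y * g⁻¹)) - f (x, y) =
      A.ρ x (A.ρ g⁻¹ (f (g * y * g⁻¹, g) - f (g, y)))
        - A.ρ g⁻¹ (f (g * (x * y) * g⁻¹, g) - f (g, x * y))
        + A.ρ g⁻¹ (f (g * x * g⁻¹, g) - f (g, x)) := by
  have hc := (mem_cocycles₂_def (A := A) f).1 f.2
  have h1 := hc (g * x * g⁻¹) (g * y * g⁻¹) g
  have h2 := hc (g * x * g⁻¹) g y
  have h3 := hc g x y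
  have e1 : g * x * g⁻¹ * (g * y * g⁻¹) = g * (x * y) * g⁻¹ := by group
  have e2 : g * y * g⁻¹ * g = g * y := by group
  have e3 : g * x * g⁻¹ * g = g * x := by group
  rw [e1, e2] at h1
  rw [e3] at h2
  have hρ : ∀ a : A, A.ρ x (A.ρ g⁻¹ a) = A.ρ g⁻¹ (A.ρ (g * x * g⁻¹) a) := by
    intro a
    rw [← Module.End.mul_apply, ← map_mul, ← Module.End.mul_apply, ← map_mul]
    congr 2
    group
  have hg : ∀ a : A, A.ρ g⁻¹ (A.ρ g a) = a := by
    intro a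
    rw [← Module.End.mul_apply, ← map_mul, inv_mul_cancel, map_one, Module.End.one_apply]
  rw [hρ, ← map_sub, ← map_add, ← hg (f (x, y)), ← map_sub]
  congr 1
  rw [map_sub]
  linear_combination (norm := abel) -h1 + h2 - h3

/-- **Inner automorphisms act trivially on `H²`.** -/
theorem map_conj_H2 (A : Rep k G) (g : G) :
    groupCohomology.map (conjHom g) (conjRep A g) 2 = 𝟙 (groupCohomology A 2) := by
  rw [← cancel_epi (H2π A), H2π_comp_map, Category.comp_id]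
  ext f
  show H2π A (mapCocycles₂ (conjHom g) (conjRep A g) f) = H2π A f
  rw [H2π_eq_iff]
  refine ⟨fun x => A.ρ g⁻¹ (f (g * x * g⁻¹, g) - f (g, x)), ?_⟩
  funext ⟨x, y⟩
  rw [d₁₂_hom_apply]
  exact (conj_sub_eq_d₁₂ A g f x y).symm

/-- Elementwise form. -/
theorem map_conj_H2_apply (A : Rep k G) (g : G) (x : groupCohomology A 2) :
    (groupCohomology.map (conjHom g) (conjRep A g) 2).hom x = x := by
  rw [map_conj_H2]
  rfl

/-- **Two-maps form**: if `f₂ = conj g ∘ f₁` and `φ₂ = φ₁ ∘ ρ(g⁻¹)`, then `(f₁, φ₁)` and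
`(f₂, φ₂)` induce the same map on `H²`. -/
theorem map_eq_of_conj {G' : Type u} [Group G'] {A : Rep k G} {B : Rep k G'} (g : G)
    (f₁ f₂ : G' →* G) (hf : ∀ x, f₂ x = g * f₁ x * g⁻¹)
    (φ₁ : Rep.res f₁ A ⟶ B) (φ₂ : Rep.res f₂ A ⟶ B)
    (hφ : ∀ a : A, φ₂.hom a = φ₁.hom (A.ρ g⁻¹ a)) :
    groupCohomology.map f₂ φ₂ 2 = groupCohomology.map f₁ φ₁ 2 := by
  rw [← cancel_epi (H2π A), H2π_comp_map, H2π_comp_map]
  ext f
  show H2π B (mapCocycles₂ f₂ φ₂ f) = H2π B (mapCocycles₂ f₁ φ₁ f)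
  rw [H2π_eq_iff]
  refine ⟨fun x => φ₁.hom (A.ρ g⁻¹ (f (g * f₁ x * g⁻¹, g) - f (g, f₁ x))), ?_⟩
  funext ⟨x, y⟩
  rw [d₁₂_hom_apply]
  show B.ρ x (φ₁.hom (A.ρ g⁻¹ (f (g * f₁ y * g⁻¹, g) - f (g, f₁ y))))
      - φ₁.hom (A.ρ g⁻¹ (f (g * f₁ (x * y) * g⁻¹, g) - f (g, f₁ (x * y))))
      + φ₁.hom (A.ρ g⁻¹ (f (g * f₁ x * g⁻¹, g) - f (g, f₁ x)))
    = φ₂.hom (f (f₂ x, f₂ y)) - φ₁.hom (f (f₁ x, f₁ y))
  have h1 : ∀ a : A, B.ρ x (φ₁.hom a) = φ₁.hom (A.ρ (f₁ x) a) := fun a =>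
    (Rep.hom_comm_apply φ₁ x a).symm
  have key := congrArg φ₁.hom (conj_sub_eq_d₁₂ A g f (f₁ x) (f₁ y))
  rw [h1, hφ, hf x, hf y, map_mul]
  simp only [map_sub, map_add] at key ⊢
  exact key.symm

end Fermat.Agent.S55.H17
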