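import Fermat.Agent.S55.H26.LocalDefs
import Fermat.Agent.S55.H62.Cup

/-!
# S55 / C9a, leaf L5 (helper17): the invariant form on `F_L' = 𝔽_p[G_ℚ / G_L]^∨(1)`

For a subgroup `U` of a group `G`, a character `χ : G →* kˣ` trivial on `U` and `X = G ⧸ U` finite,
the module `N = k[X]^∨(χ)` (`(Rep.ofMulAction k G X).dualTwist χ`) carries the `G`-invariant
symmetric form
  `⟨a, b⟩ = ∑_{x ∈ X} χ(x)⁻¹ a(δ_x) b(δ_x)`   with values in `k(χ)`,
which is nondegenerate; hence `θ : N → N^∨(χ)`, `θ b = ⟨·, b⟩`, is an isomorphism of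
representations.  (Mathlib only + `H26.charQuot`.)
-/

set_option autoImplicit false

open CategoryTheory

noncomputable section

namespace Fermat.Agent.S55.H17

open Fermat.Agent.S55.H26

section Form

variable {G : Type} [Group G] {k : Type} [Field k] (χ : G →* kˣ) (U : Subgroup G)
  (hU : ∀ s ∈ U, χ s = 1)

/-- The module `k[G ⧸ U]^∨(χ)`. -/
abbrev dualPerm : Rep.{0} k G := (permRep k U).dualTwist χ

/-- Evaluation of a functional on `k[G ⧸ U]` at the basis vector `δ_x`. -/
def evAt (x : G ⧸ U) : Module.Dual k (permRep k U) →ₗ[k] k :=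
  LinearMap.applyₗ (MonoidAlgebra.single x (1 : k) : permRep k U)

@[simp]
theorem evAt_apply (x : G ⧸ U) (a : Module.Dual k (permRep k U)) :
    evAt U x a = a (MonoidAlgebra.single x (1 : k) : permRep k U) := rfl

/-- The weight `χ(x)⁻¹` of the form. -/
def formWeight (x : G ⧸ U) : k := (charQuot χ U hU x)⁻¹

theorem formWeight_ne_zero (x : G ⧸ U) : formWeight χ U hU x ≠ 0 := by
  induction x using QuotientGroup.induction_on with
  | H a =>
    unfold formWeight
    rw [charQuot_mk]
    exact inv_ne_zero (Units.ne_zero _)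

theorem formWeight_smul (g : G) (x : G ⧸ U) :
    formWeight χ U hU (g • x) = (χ g : k)⁻¹ * formWeight χ U hU x := by
  induction x using QuotientGroup.induction_on with
  | H a =>
    show (charQuot χ U hU ((g * a : G) : G ⧸ U))⁻¹ = (χ g : k)⁻¹ * (charQuot χ U hU (a : G ⧸ U))⁻¹
    rw [charQuot_mk, charQuot_mk, map_mul, Units.val_mul, mul_inv]

/-- The action of `G` on `k[G ⧸ U]^∨(χ)`, evaluated at a basis vector. -/
theorem dualPerm_ρ_single (g : G) (a : Module.Dual k (permRep k U)) (x : G ⧸ U) :
    ((dualPerm χ U).ρ g a : Module.Dual k (permRep k U))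
        (MonoidAlgebra.single x (1 : k) : permRep k U) =
      (χ g : k) * a (MonoidAlgebra.single (g⁻¹ • x) (1 : k) : permRep k U) := by
  rw [Rep.dualTwist_ρ_apply]
  show (χ g : k) • a ((permRep k U).ρ g⁻¹ (MonoidAlgebra.single x (1 : k))) = _
  have h : (permRep k U).ρ g⁻¹ (MonoidAlgebra.single x (1 : k)) =
      MonoidAlgebra.single (g⁻¹ • x) (1 : k) :=
    Representation.ofMulAction_single (k := k) (G := G) (H := G ⧸ U) g⁻¹ x 1
  rw [h, smul_eq_mul]

/-- The functional `δ_x^*` on `k[G ⧸ U]`: the coefficient at `x`. -/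
def coeffAt (x : G ⧸ U) : Module.Dual k (permRep k U) :=
  (Finsupp.lapply x) ∘ₗ (MonoidAlgebra.coeffLinearEquiv k).toLinearMap

theorem coeffAt_single [DecidableEq (G ⧸ U)] (x y : G ⧸ U) :
    coeffAt (k := k) U x (MonoidAlgebra.single y (1 : k) : permRep k U) =
      if y = x then 1 else 0 := by
  show ((MonoidAlgebra.coeffLinearEquiv k) (MonoidAlgebra.single y (1 : k)) : (G ⧸ U) →₀ k) x = _
  simp [Finsupp.single_apply]

/-- A functional on `k[G ⧸ U]` vanishing on the basis vectors is zero. -/
theorem dual_eq_zero_of_single (b : Module.Dual k (permRep k U))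
    (h : ∀ x : G ⧸ U, b (MonoidAlgebra.single x (1 : k) : permRep k U) = 0) : b = 0 := by
  refine MonoidAlgebra.lhom_ext' fun x => LinearMap.ext fun r => ?_
  show b (MonoidAlgebra.single x r) = 0
  have e : (MonoidAlgebra.single x r : MonoidAlgebra k (G ⧸ U)) =
      r • MonoidAlgebra.single x (1 : k) := by
    rw [MonoidAlgebra.smul_single, smul_eq_mul, mul_one]
  rw [e, map_smul, h, smul_zero]

variable [Fintype (G ⧸ U)]

/-- The invariant form on `k[G ⧸ U]^∨`, with values in `k`. -/
def formLin : Module.Dual k (permRep k U) →ₗ[k] Module.Dual k (permRep k U) →ₗ[k] k :=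
  ∑ x : G ⧸ U, formWeight χ U hU x •
    (LinearMap.mul k k).compl₁₂ (evAt U x) (evAt U x)

theorem formLin_apply (a b : Module.Dual k (permRep k U)) :
    formLin χ U hU a b = ∑ x : G ⧸ U, formWeight χ U hU x *
      (a (MonoidAlgebra.single x (1 : k) : permRep k U) *
        b (MonoidAlgebra.single x (1 : k) : permRep k U)) := by
  simp only [formLin, LinearMap.sum_apply, LinearMap.smul_apply, LinearMap.compl₁₂_apply,
    LinearMap.mul_apply', smul_eq_mul]
  rfl

theorem formLin_symm (a b : Module.Dual k (permRep k U)) :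
    formLin χ U hU a b = formLin χ U hU b a := by
  rw [formLin_apply, formLin_apply]
  exact Finset.sum_congr rfl fun x _ => by ring

/-- The form is `G`-invariant with values in `k(χ)`. -/
theorem formLin_ρ (g : G) (a b : Module.Dual k (permRep k U)) :
    formLin χ U hU ((dualPerm χ U).ρ g a) ((dualPerm χ U).ρ g b) =
      (χ g : k) * formLin χ U hU a b := by
  rw [formLin_apply, formLin_apply, Finset.mul_sum]
  refine Fintype.sum_equiv (MulAction.toPerm g⁻¹) _ _ fun x => ?_
  rw [dualPerm_ρ_single, dualPerm_ρ_single, MulAction.toPerm_apply, formWeight_smul, map_inv,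
    Units.val_inv_eq_inv_val, inv_inv]
  have hg : (χ g : k) ≠ 0 := Units.ne_zero _
  field_simp

/-- `⟨δ_x^*, b⟩ = χ(x)⁻¹ b(δ_x)`. -/
theorem formLin_coeffAt (x : G ⧸ U) (b : Module.Dual k (permRep k U)) :
    formLin χ U hU (coeffAt U x) b =
      formWeight χ U hU x * b (MonoidAlgebra.single x (1 : k) : permRep k U) := by
  classical
  rw [formLin_apply, Finset.sum_eq_single x]
  · rw [coeffAt_single, if_pos rfl, one_mul]
  · intro y _ hy
    rw [coeffAt_single, if_neg hy, zero_mul, mul_zero]
  · intro h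
    exact absurd (Finset.mem_univ x) h

/-- The form is nondegenerate. -/
theorem formLin_nondeg (b : Module.Dual k (permRep k U))
    (h : ∀ a, formLin χ U hU a b = 0) : b = 0 := by
  refine dual_eq_zero_of_single U b fun x => ?_
  have h1 := h (coeffAt U x)
  rw [formLin_coeffAt] at h1
  exact (mul_eq_zero.mp h1).resolve_left (formWeight_ne_zero χ U hU x)

/-- `θ b = ⟨·, b⟩`, as a linear map `N → N^∨`. -/
def thetaLin : Module.Dual k (permRep k U) →ₗ[k] Module.Dual k (Module.Dual k (permRep k U)) :=
  (formLin χ U hU).flip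

theorem thetaLin_apply (a b : Module.Dual k (permRep k U)) :
    thetaLin χ U hU b a = formLin χ U hU a b := rfl

theorem thetaLin_injective : Function.Injective (thetaLin χ U hU) := by
  rw [← LinearMap.ker_eq_bot, LinearMap.ker_eq_bot']
  intro b hb
  refine formLin_nondeg χ U hU b fun a => ?_
  rw [← thetaLin_apply, hb, LinearMap.zero_apply]

instance finite_permRep : Module.Finite k (permRep k U) :=
  Module.Finite.equiv (MonoidAlgebra.coeffLinearEquiv k).symm

/-- `θ` as a linear equivalence. -/
def thetaEquiv : Module.Dual k (permRep k U) ≃ₗ[k] Module.Dual k (Module.Dual k (permRep k U)) :=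
  LinearMap.linearEquivOfInjective (thetaLin χ U hU) (thetaLin_injective χ U hU)
    Subspace.dual_finrank_eq.symm

theorem thetaEquiv_apply (b : Module.Dual k (permRep k U)) :
    thetaEquiv χ U hU b = thetaLin χ U hU b := rfl

/-- `θ` is `G`-equivariant `N → N^∨(χ)`. -/
theorem thetaLin_ρ (g : G) (b : Module.Dual k (permRep k U)) :
    thetaLin χ U hU ((dualPerm χ U).ρ g b) =
      ((dualPerm χ U).dualTwist χ).ρ g (thetaLin χ U hU b) := by
  refine LinearMap.ext fun a => ?_
  have h1 : (((dualPerm χ U).dualTwist χ).ρ g (thetaLin χ U hU b) :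
      Module.Dual k (Module.Dual k (permRep k U))) a =
      (χ g : k) * formLin χ U hU ((dualPerm χ U).ρ g⁻¹ a) b := rfl
  have h2 : (dualPerm χ U).ρ g ((dualPerm χ U).ρ g⁻¹ a) = a := by
    rw [← Module.End.mul_apply, ← map_mul, mul_inv_cancel, map_one, Module.End.one_apply]
  rw [h1, thetaLin_apply, ← formLin_ρ χ U hU g, h2]

/-! ### Restriction along a group homomorphism -/

variable {H : Type} [Group H] (f : H →* G)

/-- The form on the restriction of `k[G ⧸ U]^∨(χ)` to `H`, with values in `k(χ ∘ f)`. -/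
def formRes : (Rep.res f (dualPerm χ U)) →ₗ[k] (Rep.res f (dualPerm χ U)) →ₗ[k] (mu (χ.comp f)) :=
  formLin χ U hU

theorem formRes_apply (a b : Module.Dual k (permRep k U)) :
    formRes χ U hU f a b = formLin χ U hU a b := rfl

theorem formRes_equivariant : Fermat.Agent.S55.H62.IsEquivariantPairing (formRes χ U hU f) := by
  intro h a b
  show formLin χ U hU ((dualPerm χ U).ρ (f h) a) ((dualPerm χ U).ρ (f h) b) =
    (mu (χ.comp f)).ρ h (formLin χ U hU a b)
  rw [formLin_ρ, mu_ρ_apply]
  rfl

/-- `θ : N → N^∨(χ)` on the restriction to `H`. -/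
def thetaRes : Rep.res f (dualPerm χ U) ⟶ (Rep.res f (dualPerm χ U)).dualTwist (χ.comp f) :=
  Rep.ofHom (ρ := (Rep.res f (dualPerm χ U)).ρ)
    (σ := ((Rep.res f (dualPerm χ U)).dualTwist (χ.comp f)).ρ)
    { toLinearMap := thetaLin χ U hU
      isIntertwining' := fun h => LinearMap.ext fun b => by
        show thetaLin χ U hU ((dualPerm χ U).ρ (f h) b) =
          ((χ.comp f) h : k) • (thetaLin χ U hU b ∘ₗ (dualPerm χ U).ρ (f h⁻¹))
        rw [map_inv]
        exact thetaLin_ρ χ U hU (f h) b }

theorem thetaRes_hom_apply (a b : Module.Dual k (permRep k U)) :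
    ((thetaRes χ U hU f).hom b : Module.Dual k (Module.Dual k (permRep k U))) a =
      formLin χ U hU a b := rfl

/-- The inverse of `θ` on the restriction to `H`. -/
def thetaInvRes : (Rep.res f (dualPerm χ U)).dualTwist (χ.comp f) ⟶ Rep.res f (dualPerm χ U) :=
  Rep.ofHom (ρ := ((Rep.res f (dualPerm χ U)).dualTwist (χ.comp f)).ρ)
    (σ := (Rep.res f (dualPerm χ U)).ρ)
    { toLinearMap := (thetaEquiv χ U hU).symm.toLinearMap
      isIntertwining' := fun h => LinearMap.ext fun l => by
        apply (thetaEquiv χ U hU).injective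
        show thetaLin χ U hU ((thetaEquiv χ U hU).symm
            (((Rep.res f (dualPerm χ U)).dualTwist (χ.comp f)).ρ h l)) =
          thetaLin χ U hU ((dualPerm χ U).ρ (f h) ((thetaEquiv χ U hU).symm l))
        rw [← thetaEquiv_apply, LinearEquiv.apply_symm_apply, thetaLin_ρ, ← thetaEquiv_apply,
          LinearEquiv.apply_symm_apply]
        show ((χ.comp f) h : k) • (l ∘ₗ (dualPerm χ U).ρ (f h⁻¹)) = _
        rw [map_inv]
        rfl }

theorem thetaInvRes_comp : thetaInvRes χ U hU f ≫ thetaRes χ U hU f = 𝟙 _ := by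
  refine Rep.hom_ext (Representation.IntertwiningMap.ext (LinearMap.ext fun l => ?_))
  show thetaLin χ U hU ((thetaEquiv χ U hU).symm l) = l
  rw [← thetaEquiv_apply, LinearEquiv.apply_symm_apply]

end Form

end Fermat.Agent.S55.H17

end
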