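import Fermat.Agent.S55.H17.IsoForm
import Fermat.Agent.S55.H87.IsoLocalSpec
import Fermat.Agent.S55.H87.IsoSpec
import Fermat.Agent.S55.H87.BaseAdm
import Fermat.Agent.S55.H68.BridgeLocal1
import Fermat.Agent.S55.H62.RLevel
import Fermat.Agent.S55.H43.Levels
import Fermat.Agent.S29.H81.CycloFrob

/-!
# S55 / C9a, leaf L5 (helper17): `IsoLocalStatement` from its sub-leaves

`isoLocalStatement_of_leaves`: the local leaf of ISOTROPY (`H87.IsoLocalStatement p S (chiRep p)
inv`) from

* `H87.LocalH1NondegLeaf` (ISO-ND, abstract) and `H87.IsoDimLeaf p S` (ISO-DIM);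
* local injectivity (L) and non-vanishing for level-constant invariants `invlc q` on
  `H²(G_q, 𝔽_p(χ))` (C4), normal levels of the local level data;
* the cocycle-level compatibility of the Prelude-side invariants `inv q` with `invlc q`.

The cup product is taken along the invariant form of `IsoForm.lean` on chosen level cocycle
representatives; `Λ_q = Hq S q N 1`, `lam_q = resq ∘ (degree-1 bridge)`, `B_q = invlc q ∘ ∪`.
-/

set_option autoImplicit false

open CategoryTheory Module groupCohomology ExtCitation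

noncomputable section

namespace Fermat.Agent.S55.H17

open Fermat.Agent.S55.H49 Fermat.Agent.S55.H26 Fermat.Agent.S55.H62 Fermat.Agent.S55.H87

local notation "Γ" => (AlgebraicClosure ℚ ≃ₐ[ℚ] AlgebraicClosure ℚ)

local instance isAlgebraicQbar_h17 : Algebra.IsAlgebraic ℚ (AlgebraicClosure ℚ) :=
  AlgebraicClosure.isAlgebraic ℚ
local instance isAlgClosureQbar_h17 : IsAlgClosure ℚ (AlgebraicClosure ℚ) :=
  ⟨inferInstance, inferInstance⟩
local instance isGaloisQbar_h17 : IsGalois ℚ (AlgebraicClosure ℚ) :=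
  IsAlgClosure.isGalois ℚ (AlgebraicClosure ℚ)

/-! ### Generic plumbing -/

section Plumbing

variable {k : Type} [CommRing k]

/-- The class map of C0 is the class map of C2. -/
theorem cls_eq_Hmk (K : CochainComplex (ModuleCat.{0} k) ℕ) (n : ℕ) (z : cyc K n) :
    (cls K n).hom z = Hmk K n z.1 (mem_cyc.mp z.2) := by
  show (K.homologyπ n).hom ((cycToCycles K n).hom z) = (K.homologyπ n).hom (Zmk K n z.1 _)
  congr 1
  apply iCycles_injective K n
  rw [iCycles_cycToCycles, iCycles_Zmk]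

variable {G : Type} [Group G] {A B C : Rep.{0} k G}

/-- The cup product in bidegree `(1, 1)`, written out. -/
theorem cupR_one_one (φ : A →ₗ[k] B →ₗ[k] C) (f : (Fin 1 → G) → A) (g : (Fin 1 → G) → B)
    (x : Fin 2 → G) :
    cupR φ 1 1 2 f g x = φ (f fun _ => x 0) (B.ρ (x 0) (g fun _ => x 1)) := by
  rw [cupR_of_eq φ (rfl : 1 + 1 = 2), cup_apply]
  have e1 : tupleFst (m := 1) (n := 1) (fun i => x (Fin.cast rfl i)) = fun _ => x 0 := by
    funext i
    rw [Fin.fin_one_eq_zero i]
    rfl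
  have e2 : tupleSnd (m := 1) (n := 1) (fun i => x (Fin.cast rfl i)) = fun _ => x 1 := by
    funext i
    rw [Fin.fin_one_eq_zero i]
    rfl
  have e3 : tupleProd (fun _ : Fin 1 => x 0) = x 0 := by
    rw [tupleProd_succ, tupleProd_zero, mul_one]
  rw [e1, e2, e3]

end Plumbing

/-! ### The pairing along a form versus the evaluation pairing -/

section FormVsEval

variable {G : Type} [Group G] {k : Type} [Field k]

/-- If `θ : A ⟶ A^∨(χ)` represents the form `φ` (`θ b = φ(·, b)`), the cup product along `φ` is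
the cup product along the evaluation pairing composed with `θ_*`. -/
theorem pairing_eq_cupTwist (D : LevelDatum G) (A : Rep.{0} k G) (χ : G →* kˣ)
    (φ : A →ₗ[k] A →ₗ[k] (mu χ)) (hφ : IsEquivariantPairing φ) (θ : A ⟶ A.dualTwist χ)
    (hθ : ∀ a b : A, (θ.hom b : Module.Dual k A) a = φ a b)
    (x y : Hlc D A 1) :
    (lcPairing D φ hφ).H 1 1 2 rfl x y = cupTwist D A χ x (hlcMap D θ 1 y) := by
  obtain ⟨x, hx, rfl⟩ := Hmk_surjective (lcComplex D A) 1 x
  obtain ⟨y, hy, rfl⟩ := Hmk_surjective (lcComplex D A) 1 y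
  have e1 : hlcMap D θ 1 (Hmk (lcComplex D A) 1 y hy) =
      Hmk (lcComplex D (A.dualTwist χ)) 1 (((lcMapCoeff D θ).f 1).hom y)
        (map_d_eq_zero (lcMapCoeff D θ) 1 y hy) :=
    homologyMap_Hmk (lcMapCoeff D θ) 1 y hy
  rw [e1]
  refine (CPairing.H_mk (lcPairing D φ hφ) 1 1 2 rfl x hx y hy).trans ?_
  refine Eq.trans ?_ (CPairing.H_mk (lcPairing D (evTwist A χ) (evTwist_equivariant A χ))
    1 1 2 rfl x hx _ (map_d_eq_zero (lcMapCoeff D θ) 1 y hy)).symm
  refine Hmk_congr _ 2 ?_ _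
  apply Subtype.ext
  funext g
  show cupR φ 1 1 2 (lcValC x) (lcValC y) g =
    cupR (evTwist A χ) 1 1 2 (lcValC x) (fun t => θ.hom (lcValC y t)) g
  rw [cupR_one_one, cupR_one_one, evTwist_apply]
  have h1 : (A.dualTwist χ).ρ (g 0) (θ.hom (lcValC y fun _ => g 1)) =
      θ.hom (A.ρ (g 0) (lcValC y fun _ => g 1)) :=
    (Rep.hom_comm_apply θ (g 0) _).symm
  rw [h1, hθ]

/-- Left nondegeneracy of the pairing along a form represented by an invertible `θ`, from left
nondegeneracy of the evaluation pairing. -/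
theorem leftNondeg_of_theta (D : LevelDatum G) (A : Rep.{0} k G) (χ : G →* kˣ)
    (inv : Hlc D (mu χ) 2 →ₗ[k] k)
    (φ : A →ₗ[k] A →ₗ[k] (mu χ)) (hφ : IsEquivariantPairing φ) (θ : A ⟶ A.dualTwist χ)
    (ψ : A.dualTwist χ ⟶ A) (hψθ : ψ ≫ θ = 𝟙 _)
    (hθ : ∀ a b : A, (θ.hom b : Module.Dual k A) a = φ a b)
    (hnd : ∀ u : Hlc D A 1, u ≠ 0 →
      ∃ v : Hlc D (A.dualTwist χ) 1, inv (cupTwist D A χ u v) ≠ 0)
    (x : Hlc D A 1) (hx : ∀ y : Hlc D A 1, inv ((lcPairing D φ hφ).H 1 1 2 rfl x y) = 0) :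
    x = 0 := by
  by_contra hx0
  obtain ⟨v, hv⟩ := hnd x hx0
  apply hv
  have h1 := hx (hlcMap D ψ 1 v)
  rw [pairing_eq_cupTwist D A χ φ hφ θ hθ, ← hlcMap_comp_apply, hψθ, hlcMap_id] at h1
  exact h1

/-- The pairing of the classes of two `1`-cocycles is the class of their cup product. -/
theorem pairing_cls {A B C : Rep.{0} k G} (D : LevelDatum G) (φ : A →ₗ[k] B →ₗ[k] C)
    (hφ : IsEquivariantPairing φ) (za : cyc (lcComplex D A) 1) (zb : cyc (lcComplex D B) 1) :
    ∃ zc : cyc (lcComplex D C) 2,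
      (lcPairing D φ hφ).H 1 1 2 rfl ((cls (lcComplex D A) 1).hom za)
        ((cls (lcComplex D B) 1).hom zb) = (cls (lcComplex D C) 2).hom zc ∧
      ∀ g : Fin 2 → G,
        lcVal zc g = φ (lcVal za fun _ => g 0) (B.ρ (g 0) (lcVal zb fun _ => g 1)) := by
  have hd := CPairing.d_P_of_cocycle (lcPairing D φ hφ) (rfl : 1 + 1 = 2) (mem_cyc.mp za.2)
    (mem_cyc.mp zb.2)
  refine ⟨⟨(lcPairing D φ hφ).P 1 1 2 za.1 zb.1, mem_cyc.mpr hd⟩, ?_, fun g => ?_⟩
  · rw [cls_eq_Hmk, cls_eq_Hmk, cls_eq_Hmk, CPairing.H_mk]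
  · show cupR φ 1 1 2 (lcValC za.1) (lcValC zb.1) g = _
    rw [cupR_one_one]
    rfl

/-- The pairing of the restrictions of the classes of two `1`-cocycles. -/
theorem pairing_res_cls {G' : Type} [Group G'] (D' : LevelDatum G') (D : LevelDatum G)
    (h : D'.Hom D) (N : Rep.{0} k G) {C' : Rep.{0} k G'}
    (φ' : (Rep.res h.φ N) →ₗ[k] (Rep.res h.φ N) →ₗ[k] C') (hφ' : IsEquivariantPairing φ')
    (za zb : cyc (lcComplex D N) 1) :
    ∃ zc : cyc (lcComplex D' C') 2,
      (lcPairing D' φ' hφ').H 1 1 2 rfl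
        ((HomologicalComplex.homologyMap (lcRes h N) 1).hom ((cls (lcComplex D N) 1).hom za))
        ((HomologicalComplex.homologyMap (lcRes h N) 1).hom ((cls (lcComplex D N) 1).hom zb)) =
          (cls (lcComplex D' C') 2).hom zc ∧
      ∀ g : Fin 2 → G',
        lcVal zc g = φ' (lcVal za (fun _ => h.φ (g 0)) : N)
          (N.ρ (h.φ (g 0)) (lcVal zb (fun _ => h.φ (g 1)) : N) : N) := by
  obtain ⟨zc, hzc, hzcv⟩ := pairing_cls D' φ' hφ' (cycMap (lcRes h N) 1 za)
    (cycMap (lcRes h N) 1 zb)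
  refine ⟨zc, ?_, fun g => ?_⟩
  · rw [homologyMap_cls, homologyMap_cls]
    exact hzc
  · rw [hzcv g]
    rfl

end FormVsEval

/-! ### The global data -/

section Global

variable {p : ℕ} [Fact p.Prime] {S : Finset Nat.Primes}

/-- The cyclotomic character is trivial on `G_L` for a level field `L` (`μ_p ⊆ L`). -/
theorem cycloChar_eq_one_of_isLevelField {L : IntermediateField ℚ (AlgebraicClosure ℚ)}
    (hL : H70.IsLevelField p S L) : ∀ s ∈ L.fixingSubgroup, cycloChar p s = 1 := by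
  obtain ⟨z, hz⟩ := Fermat.Agent.S29.H81.exists_isPrimitiveRoot_qbar p
  have hzL : z ∈ L := hL.2.2 z hz.pow_eq_one
  intro s hs
  exact Fermat.Agent.S29.H81.cycloChar_eq_one_of_apply hz
    ((IntermediateField.mem_fixingSubgroup_iff L s).mp hs z hzL)

variable (L : IntermediateField ℚ (AlgebraicClosure ℚ))
  (hχ : ∀ s ∈ L.fixingSubgroup, cycloChar p s = 1)

include hχ in
/-- `G_L` acts trivially on `F_L'`. -/
theorem baseDual_ρ_eq_one (hgal : IsGalois ℚ L) {s : Γ} (hs : s ∈ L.fixingSubgroup) :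
    (H70.D p (H70.baseRep p L)).ρ s = 1 :=
  Fermat.Agent.S55.H43.dualTwist_ρ_eq_one _ (baseRep_ρ_eq_one L hgal hs) (hχ s hs)

include hχ in
/-- `F_L'` is smooth for the global level datum. -/
theorem baseDual_smooth (hur : L.IsUnramifiedOutside S) (hgal : IsGalois ℚ L) :
    (globalDatum S).Smooth (H70.D p (H70.baseRep p L)) := by
  refine ⟨L, hur, ?_, fun s hs m => ?_⟩
  · exact @IsGalois.fixingSubgroup_normal_of_isGalois ℚ (AlgebraicClosure ℚ) _ _ _ L _ hgal
  · have h1 : (H70.D p (H70.baseRep p L)).ρ s = 1 := baseDual_ρ_eq_one L hχ hgal hs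
    rw [h1, Module.End.one_apply]

variable [Fintype (Γ ⧸ L.fixingSubgroup)]

/-- The invariant form on `F_L'`, with values in `𝔽_p(χ)`. -/
def gForm : (H70.D p (H70.baseRep p L)) →ₗ[ZMod p] (H70.D p (H70.baseRep p L)) →ₗ[ZMod p]
    (chiRep p) :=
  formLin (cycloChar p) L.fixingSubgroup hχ

theorem gForm_apply (a b : H70.D p (H70.baseRep p L)) :
    gForm L hχ a b = formLin (cycloChar p) L.fixingSubgroup hχ a b := rfl

theorem gForm_equivariant : IsEquivariantPairing (gForm L hχ) := by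
  intro g a b
  show formLin (cycloChar p) L.fixingSubgroup hχ
      ((dualPerm (cycloChar p) L.fixingSubgroup).ρ g a)
      ((dualPerm (cycloChar p) L.fixingSubgroup).ρ g b) =
    ((cycloChar p g : ZMod p)) • formLin (cycloChar p) L.fixingSubgroup hχ a b
  rw [formLin_ρ]
  rfl

/-- A chosen level-`S` cocycle representing a class of `H¹_S`. -/
def repCoc (N : Rep.{0} (ZMod p) Γ) (x : ↥(continuousH1S S N)) : cocycles₁ N :=
  ((mem_continuousH1S_iff S N x.1).1 x.2).choose

theorem repCoc_level (N : Rep.{0} (ZMod p) Γ) (x : ↥(continuousH1S S N)) :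
    IsLevelConstantS₁ S (repCoc N x : Γ → N) :=
  ((mem_continuousH1S_iff S N x.1).1 x.2).choose_spec.1

theorem repCoc_class (N : Rep.{0} (ZMod p) Γ) (x : ↥(continuousH1S S N)) :
    (H1π N).hom (repCoc N x) = x.1 :=
  ((mem_continuousH1S_iff S N x.1).1 x.2).choose_spec.2

/-- The cup product of two level-`S` cocycles along the form is a level-`S` cocycle. -/
theorem cup11_mem (hur : L.IsUnramifiedOutside S) (hgal : IsGalois ℚ L)
    (a b : cocycles₁ (H70.D p (H70.baseRep p L)))
    (ha : IsLevelConstantS₁ S (a : Γ → H70.D p (H70.baseRep p L)))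
    (hb : IsLevelConstantS₁ S (b : Γ → H70.D p (H70.baseRep p L))) :
    cup11 (gForm L hχ) (a : Γ → H70.D p (H70.baseRep p L)) (b : Γ → H70.D p (H70.baseRep p L)) ∈
      levelCocyclesS₂ S (chiRep p) := by
  refine ⟨?_, isLevelConstantS₂_cup11 (gForm L hχ)
    ⟨L, hur, fun s hs => baseDual_ρ_eq_one L hχ hgal hs⟩ ha hb⟩
  show (d₂₃ (chiRep p)).hom _ = 0
  have hb2 : (b : Γ → H70.D p (H70.baseRep p L)) ∈ cocycles₁ (H70.D p (H70.baseRep p L)) := b.2
  rw [d₂₃_cup11 (gForm_equivariant L hχ) _ hb2]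
  have h0 : (d₁₂ (H70.D p (H70.baseRep p L))).hom (a : Γ → H70.D p (H70.baseRep p L)) = 0 := a.2
  rw [h0]
  funext g
  show gForm L hχ (0 : H70.D p (H70.baseRep p L)) _ = 0
  rw [map_zero, LinearMap.zero_apply]

/-- The cup product `H¹_S(F_L') × H¹_S(F_L') → H²(G_S, 𝔽_p(χ))` along the invariant form, on
chosen cocycle representatives. -/
def cupFun (hur : L.IsUnramifiedOutside S) (hgal : IsGalois ℚ L)
    (x y : ↥(continuousH1S S (H70.D p (H70.baseRep p L)))) : continuousH2S S (chiRep p) :=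
  continuousH2Sπ S (chiRep p)
    ⟨cup11 (gForm L hχ) (repCoc _ x : Γ → H70.D p (H70.baseRep p L))
        (repCoc _ y : Γ → H70.D p (H70.baseRep p L)),
      cup11_mem L hχ hur hgal _ _ (repCoc_level _ x) (repCoc_level _ y)⟩

end Global

/-! ### The assembly -/

section Assembly

variable {p : ℕ} [Fact p.Prime] {S : Finset Nat.Primes}

/-- **Leaf L5 of C9a (`IsoLocalStatement`) from its sub-leaves.** -/
theorem isoLocalStatement_of_leaves
    (hND : LocalH1NondegLeaf) (hDim : IsoDimLeaf p S)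
    (invlc : ∀ q : ↥S,
      Hlc (primeDatum S q) (mu ((cycloChar p).comp (primeLocalToGlobal q.1))) 2 →ₗ[ZMod p] ZMod p)
    (hL : ∀ q : ↥S, LocalInjStatement (primeDatum S q)
      ((cycloChar p).comp (primeLocalToGlobal q.1)) (invlc q))
    (hne : ∀ q : ↥S, ∃ z, invlc q z ≠ 0)
    (hNorm : ∀ q : ↥S, (primeDatum S q).HasNormalLevels)
    (inv : LocalInv p S)
    (hinv : ∀ (q : ↥S) (c : ↥(levelCocycles₂ (primeLocalToGlobal q.1) (chiLoc p S q)))
      (z : cyc (lcComplex (primeDatum S q) (mu ((cycloChar p).comp (primeLocalToGlobal q.1)))) 2),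
      (∀ g : Fin 2 → primeLocalGaloisGroup q.1,
        (lcVal z g : ZMod p) = (c : _ × _ → chiLoc p S q) (g 0, g 1)) →
        inv q (continuousH2π _ _ c) = invlc q ((cls _ 2).hom z)) :
    IsoLocalStatement p S (chiRep p) inv := by
  classical
  intro L hLf _
  have hχ := cycloChar_eq_one_of_isLevelField hLf
  have hur : L.IsUnramifiedOutside S := hLf.1
  have hgal : IsGalois ℚ L := hLf.2.1
  have : FiniteDimensional ℚ L := hur.1
  have : Finite (Γ ⧸ L.fixingSubgroup) :=
    Subgroup.quotient_finite_of_isOpen L.fixingSubgroup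
      (IntermediateField.fixingSubgroup_isOpen L)
  let _ : Fintype (Γ ⧸ L.fixingSubgroup) := Fintype.ofFinite _
  have hN : (globalDatum S).Smooth (H70.D p (H70.baseRep p L)) := baseDual_smooth L hχ hur hgal
  obtain ⟨e, he1, he2⟩ := Fermat.Agent.S55.H68.bridgeGlobal1All (ZMod p) S _ hN
  refine ⟨cupFun L hχ hur hgal, fun q => ?_⟩
  -- the bridge on the chosen representatives
  have key : ∀ (x : ↥(continuousH1S S (H70.D p (H70.baseRep p L))))
      (z : cyc (lcComplex (globalDatum S) (H70.D p (H70.baseRep p L))) 1),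
      (∀ g : Fin 1 → Γ, lcVal z g = (repCoc _ x).1 (g 0)) →
        e x = (cls (lcComplex (globalDatum S) (H70.D p (H70.baseRep p L))) 1).hom z := by
    intro x z hz
    have h := he2 (repCoc _ x) (repCoc_level _ x) z hz
    have hx' : x = ⟨(H1π _).hom (repCoc _ x),
        (mem_continuousH1S_iff S _ _).2 ⟨repCoc _ x, repCoc_level _ x, rfl⟩⟩ :=
      Subtype.ext (repCoc_class _ x).symm
    exact (congrArg e hx').trans h
  -- local data at `q`
  have hAsm : (primeDatum S q).Smooth
      (Rep.res (primeHom S q).φ (H70.D p (H70.baseRep p L))) := smooth_res (primeHom S q) hN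
  have hmuSm : (primeDatum S q).Smooth (mu ((cycloChar p).comp (primeLocalToGlobal q.1))) := by
    refine ⟨L, hur.1,
      @IsGalois.fixingSubgroup_normal_of_isGalois ℚ (AlgebraicClosure ℚ) _ _ _ L _ hgal,
      fun s hs m => ?_⟩
    rw [mu_ρ_apply]
    have h1 : ((cycloChar p).comp (primeLocalToGlobal q.1)) s = 1 := hχ _ hs
    rw [h1, Units.val_one, one_mul]
  have hfinA : Module.Finite (ZMod p) (Rep.res (primeHom S q).φ (H70.D p (H70.baseRep p L))) :=
    inferInstanceAs (Module.Finite (ZMod p)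
      (Module.Dual (ZMod p) (permRep (G := Γ) (ZMod p) L.fixingSubgroup)))
  let φq := formRes (cycloChar p) L.fixingSubgroup hχ (primeLocalToGlobal q.1)
  have hφq : IsEquivariantPairing φq :=
    formRes_equivariant (cycloChar p) L.fixingSubgroup hχ (primeLocalToGlobal q.1)
  let θq := thetaRes (cycloChar p) L.fixingSubgroup hχ (primeLocalToGlobal q.1)
  let ψq := thetaInvRes (cycloChar p) L.fixingSubgroup hχ (primeLocalToGlobal q.1)
  let B : Hq S q (H70.D p (H70.baseRep p L)) 1 →ₗ[ZMod p]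
      Hq S q (H70.D p (H70.baseRep p L)) 1 →ₗ[ZMod p] ZMod p :=
    ((lcPairing (primeDatum S q) φq hφq).H 1 1 2 rfl).compr₂ (invlc q)
  let lam : ↥(continuousH1S S (H70.D p (H70.baseRep p L))) →ₗ[ZMod p]
      Hq S q (H70.D p (H70.baseRep p L)) 1 :=
    (resq S q (H70.D p (H70.baseRep p L)) 1).hom ∘ₗ e.toLinearMap
  refine ⟨↥(Hq S q (H70.D p (H70.baseRep p L)) 1), inferInstance, inferInstance,
    (hDim L hLf q).1, B, lam, ?_, (hDim L hLf q).2, ?_, ?_⟩
  · -- left nondegeneracy
    intro x hx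
    exact leftNondeg_of_theta (primeDatum S q) _ _ (invlc q) φq hφq θq ψq
      (thetaInvRes_comp (cycloChar p) L.fixingSubgroup hχ (primeLocalToGlobal q.1))
      (fun a b => rfl)
      (fun u hu => hND (primeLocalGaloisGroup q.1) (ZMod p) (primeDatum S q) (hNorm q) _
        (invlc q) (hL q) (hne q) hmuSm _ hAsm hfinA u hu) x hx
  · -- the kernel of the localisation
    intro x hx
    obtain ⟨z, hz⟩ := he1 (repCoc _ x) (repCoc_level _ x)
    have hxe := key x z hz
    rw [← repCoc_class _ x]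
    refine (Fermat.Agent.S55.H68.bridgeLocal1All (ZMod p) S _ hN q (repCoc _ x) z hz).mpr ?_
    rw [← hxe]
    exact hx
  · -- the cup product formula
    intro x y
    obtain ⟨za, hza⟩ := he1 (repCoc _ x) (repCoc_level _ x)
    obtain ⟨zb, hzb⟩ := he1 (repCoc _ y) (repCoc_level _ y)
    have hxe := key x za hza
    have hye := key y zb hzb
    obtain ⟨zc, hzc, hzcv⟩ := pairing_res_cls (primeDatum S q) (globalDatum S) (primeHom S q)
      (H70.D p (H70.baseRep p L)) φq hφq za zb
    have hB : B (lam x) (lam y) = invlc q ((cls _ 2).hom zc) := by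
      show invlc q ((lcPairing (primeDatum S q) φq hφq).H 1 1 2 rfl
        ((resq S q _ 1).hom (e x)) ((resq S q _ 1).hom (e y))) = _
      rw [hxe, hye]
      exact congrArg (invlc q) hzc
    obtain ⟨c', hc', hc'v⟩ := locRes₂S_π S (chiRep p) (primeLocalToGlobal q.1)
      ⟨cup11 (gForm L hχ) (repCoc _ x : Γ → H70.D p (H70.baseRep p L))
          (repCoc _ y : Γ → H70.D p (H70.baseRep p L)),
        cup11_mem L hχ hur hgal _ _ (repCoc_level _ x) (repCoc_level _ y)⟩
    have hcup : locRes₂S S (chiRep p) (primeLocalToGlobal q.1) (cupFun L hχ hur hgal x y) =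
        continuousH2π _ _ c' := hc'
    refine hB.trans ?_
    rw [hcup]
    refine (hinv q c' zc fun g => ?_).symm
    rw [hzcv g, hc'v, hza, hzb]
    rfl

end Assembly

end Fermat.Agent.S55.H17

end
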