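import Fermat.Agent.S55.H17.IsoLocalTop
import Fermat.Agent.S55.H26.LocalMain
import Fermat.Agent.S55.H67.IsoDim

/-!
# S55 / C9a, leaf L5 (helper17): `IsoLocalStatement`, UNCONDITIONAL

`isoLocalStatement_holds`: for every family `inv` of local invariants of Route R
(`H26.IsLocalInvFamily p S ζ₀ inv`, `ζ₀` a primitive `p`-th root of unity of `ℚ̄`),
`H87.IsoLocalStatement p S (chiRep p) inv` holds — leaf 7 of `H87.s55_of_seven_leaves`.

Inputs, all theorems on main: ISO-ND (`H21.localH1NondegLeaf`), ISO-DIM (`H67.isoDimLeaf`),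
C4 (`H26.localInvComp_holds`, (L), (TRACE), local levels), the degree-1 bridges of C0 (`H68`),
the cup products of C2 (`H62`).
-/

set_option autoImplicit false

open CategoryTheory Module groupCohomology ExtCitation

noncomputable section

namespace Fermat.Agent.S55.H17

open Fermat.Agent.S55.H49 Fermat.Agent.S55.H26 Fermat.Agent.S55.H62 Fermat.Agent.S55.H87

variable {p : ℕ} [Fact p.Prime] {S : Finset Nat.Primes}

/-- **Leaf L5 of C9a (`IsoLocalStatement`), unconditional**, for every family of local
invariants attached to one global primitive `p`-th root of unity. -/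
theorem isoLocalStatement_holds (ζ₀ : AlgebraicClosure ℚ) (hζ₀ : IsPrimitiveRoot ζ₀ p)
    (inv : LocalInv p S) (hinv : IsLocalInvFamily p S ζ₀ inv) :
    IsoLocalStatement p S (chiRep p) inv :=
  isoLocalStatement_of_family (Fermat.Agent.S55.H67.isoDimLeaf p S)
    (fun q _ => localInvComp_holds p q) ζ₀ hζ₀ inv hinv

end Fermat.Agent.S55.H17

end
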