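import Fermat.Agent.S55.H17.IsoLocal
import Fermat.Agent.S55.H21.IsoND
import Fermat.Agent.S55.H26.LocalFinal

/-!
# S55 / C9a, leaf L5 (helper17): `IsoLocalStatement` for the family of local invariants of Route R

`isoLocalStatement_of_family`: for every family `inv` of local invariants attached to one global
primitive `p`-th root of unity (`H26.IsLocalInvFamily p S ζ₀ inv`, the `inv` of Route R),
`H87.IsoLocalStatement p S (chiRep p) inv` holds as soon as

* `H87.IsoDimLeaf p S` (ISO-DIM), and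
* `H26.LocalInvCompStatement p q` (CMP) at all primes `q`.

ISO-ND is `H21.localH1NondegLeaf`; (L), (TRACE), normal levels are the landed C4 package
(`H26.localInj_of_cmp`, `H26.localTrace_of_cmp`, `H40.localLevelsStatement`).
-/

set_option autoImplicit false

open CategoryTheory Module groupCohomology ExtCitation

noncomputable section

namespace Fermat.Agent.S55.H17

open Fermat.Agent.S55.H49 Fermat.Agent.S55.H26 Fermat.Agent.S55.H62 Fermat.Agent.S55.H87

variable {p : ℕ} [Fact p.Prime] {S : Finset Nat.Primes}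

/-- **Leaf L5 of C9a for the local invariants of Route R**; remaining leaves: ISO-DIM, CMP. -/
theorem isoLocalStatement_of_family (hDim : IsoDimLeaf p S)
    (hCMP : ∀ (q : ℕ) [Fact q.Prime], LocalInvCompStatement p q)
    (ζ₀ : AlgebraicClosure ℚ) (hζ₀ : IsPrimitiveRoot ζ₀ p)
    (inv : LocalInv p S) (hinv : IsLocalInvFamily p S ζ₀ inv) :
    IsoLocalStatement p S (chiRep p) inv := by
  have h : ∀ q : ↥S, ∃ invlc : Hlc (primeDatum S q)
      (mu ((cycloChar p).comp (primeLocalToGlobal q.1))) 2 →ₗ[ZMod p] ZMod p,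
      LocalInjStatement (primeDatum S q) ((cycloChar p).comp (primeLocalToGlobal q.1)) invlc ∧
      (∃ z, invlc z ≠ 0) ∧
      ∀ (c : ↥(levelCocycles₂ (primeLocalToGlobal q.1) (H62.chiLoc p S q)))
        (z : cyc (lcComplex (primeDatum S q)
          (mu ((cycloChar p).comp (primeLocalToGlobal q.1)))) 2),
        (∀ g : Fin 2 → primeLocalGaloisGroup q.1,
          (lcVal z g : ZMod p) = (c : _ × _ → H62.chiLoc p S q) (g 0, g 1)) →
          inv q (continuousH2π _ _ c) = invlc ((cls _ 2).hom z) := by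
    intro q
    have : Fact ((q.1 : ℕ)).Prime := ⟨q.1.2⟩
    have hζ : IsPrimitiveRoot (padicEmbedding (q.1 : ℕ) ζ₀) p :=
      hζ₀.map_of_injective (padicEmbedding (q.1 : ℕ)).injective
    obtain ⟨invlc, hloc, hc⟩ := hinv q
    refine ⟨invlc, localInj_of_cmp p (q.1 : ℕ) (hCMP (q.1 : ℕ)) _ hζ invlc hloc, ?_, hc⟩
    obtain ⟨F', -, -, hχ, z, hz⟩ := localTrace_of_cmp p (q.1 : ℕ) (hCMP (q.1 : ℕ)) _ hζ invlc hloc
      ⊥ (Dloc (q.1 : ℕ)).bot
    exact ⟨_, hz⟩
  choose invlc hL hne hc using h
  refine isoLocalStatement_of_leaves Fermat.Agent.S55.H21.localH1NondegLeaf hDim invlc hL hne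
    (fun q => ?_) inv hc
  have : Fact ((q.1 : ℕ)).Prime := ⟨q.1.2⟩
  exact (Fermat.Agent.S55.H40.localLevelsStatement (q.1 : ℕ)).1

end Fermat.Agent.S55.H17

end
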