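/-
Program C (S55), package C3, leaf `LeafNormIndex` (task 330; helper17 = model facts):
the cohomologically trivial finite-index subgroup of the units of a finite Galois extension
`L/F` of embedded local fields (`exists_unit_subgroup`), by instantiating helper69's abstract core
`H69.exists_unit_subgroup_of_galois_of_residues` with `O = intRing q L`, `ϖ` a uniformiser of `F`.

Model facts proved here (for every embedded local field):
* `nrm_algEquiv`         Galois automorphisms are isometries (spectral norm);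
* `exists_limit`         norm-Cauchy sequences converge (finite-dimensionality over `ℚ_q`);
* `exists_finite_residues`  the unit ball is covered by finitely many balls of any radius.
-/
import Fermat.Agent.S55.H66.LocalBridge
import Fermat.Agent.S55.H69.UnitIndex

set_option autoImplicit false

noncomputable section

namespace Fermat.Agent.S55.H17

open Fermat.Agent.S55.H66 IntermediateField

variable {q : ℕ} [Fact q.Prime]

section Nrm

variable {F : Type} [Field F] [Algebra F (PadicAlgCl q)]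

theorem nrm_zero : nrm q (0 : F) = 0 := by simp [nrm]

theorem nrm_one : nrm q (1 : F) = 1 := by simp [nrm]

theorem nrm_mul (x y : F) : nrm q (x * y) = nrm q x * nrm q y := by simp [nrm]

theorem nrm_pow (x : F) (n : ℕ) : nrm q (x ^ n) = nrm q x ^ n := by simp [nrm]

theorem nrm_neg (x : F) : nrm q (-x) = nrm q x := by simp [nrm]

theorem nrm_nonneg (x : F) : 0 ≤ nrm q x := norm_nonneg _

theorem nrm_eq_zero {x : F} : nrm q x = 0 ↔ x = 0 := by simp [nrm]

theorem nrm_inv (x : F) : nrm q x⁻¹ = (nrm q x)⁻¹ := by simp [nrm]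

theorem nrm_add_le (x y : F) : nrm q (x + y) ≤ max (nrm q x) (nrm q y) := by
  simp only [nrm, map_add]
  exact IsUltrametricDist.norm_add_le_max _ _

theorem nrm_sub_le (x y : F) : nrm q (x - y) ≤ max (nrm q x) (nrm q y) := by
  rw [sub_eq_add_neg, ← nrm_neg y]
  exact nrm_add_le x (-y)

theorem nrm_sub_comm (x y : F) : nrm q (x - y) = nrm q (y - x) := by
  rw [← nrm_neg (x - y), neg_sub]

theorem nrm_algebraMap (L : IntermediateField F (PadicAlgCl q)) (x : F) :
    nrm q (algebraMap F L x) = nrm q x := rfl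

/-- Conjugate elements of `Ω` over `ℚ_q` have the same norm. -/
theorem norm_eq_of_minpoly_eq {x y : PadicAlgCl q}
    (h : minpoly ℚ_[q] x = minpoly ℚ_[q] y) : ‖x‖ = ‖y‖ := by
  rw [← PadicAlgCl.spectralNorm_eq, ← PadicAlgCl.spectralNorm_eq]
  unfold spectralNorm
  rw [h]

end Nrm

section Galois

variable {F : Type} [Field F] [Algebra ℚ_[q] F] [Algebra F (PadicAlgCl q)]
  [IsScalarTower ℚ_[q] F (PadicAlgCl q)]
variable (L : IntermediateField F (PadicAlgCl q))

/-- (m1) Galois automorphisms are isometries. -/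
theorem nrm_algEquiv (τ : L ≃ₐ[F] L) (x : L) : nrm q (τ x) = nrm q x := by
  apply norm_eq_of_minpoly_eq
  have h1 : minpoly ℚ_[q] (algebraMap L (PadicAlgCl q) (τ x)) = minpoly ℚ_[q] (τ x) :=
    minpoly.algebraMap_eq (algebraMap L (PadicAlgCl q)).injective (τ x)
  have h2 : minpoly ℚ_[q] (algebraMap L (PadicAlgCl q) x) = minpoly ℚ_[q] x :=
    minpoly.algebraMap_eq (algebraMap L (PadicAlgCl q)).injective x
  have h3 : minpoly ℚ_[q] (τ x) = minpoly ℚ_[q] x :=
    minpoly.algEquiv_eq (τ.restrictScalars ℚ_[q]) x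
  rw [h1, h2, h3]

end Galois

section Complete

variable (E : Type) [Field E] [Algebra ℚ_[q] E] [Algebra E (PadicAlgCl q)]
  [IsScalarTower ℚ_[q] E (PadicAlgCl q)] [FiniteDimensional ℚ_[q] E]

/-- (m3) Completeness of an embedded local field, in norm form. -/
theorem exists_limit (f : ℕ → E) (r : ℝ) (hr0 : 0 ≤ r) (hr1 : r < 1)
    (hf : ∀ m, nrm q (f (m + 1) - f m) ≤ r ^ m) : ∃ a : E, ∀ m, nrm q (a - f m) ≤ r ^ m := by
  have : CompleteSpace (absField q E) := H88.completeSpace (absField q E)
  let g : ℕ → absField q E := fun m => toAbs q E (f m)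
  have hnorm : ∀ x y : E, ‖toAbs q E x - toAbs q E y‖ = nrm q (x - y) := by
    intro x y
    rw [← map_sub]
    rfl
  have hg : ∀ m, dist (g m) (g (m + 1)) ≤ 1 * r ^ m := by
    intro m
    rw [dist_eq_norm, one_mul, hnorm, nrm_sub_comm]
    exact hf m
  have hcau : CauchySeq g := cauchySeq_of_le_geometric r 1 hr1 hg
  obtain ⟨b, hb⟩ := cauchySeq_tendsto_of_complete hcau
  have hkm : ∀ m k, m ≤ k → nrm q (f k - f m) ≤ r ^ m := by
    intro m k hmk
    induction k, hmk using Nat.le_induction with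
    | base => rw [sub_self, nrm_zero]; exact pow_nonneg hr0 m
    | succ k hmk ih =>
      have h1 : f (k + 1) - f m = (f (k + 1) - f k) + (f k - f m) := by ring
      rw [h1]
      refine (nrm_add_le _ _).trans (max_le ((hf k).trans ?_) ih)
      exact pow_le_pow_of_le_one hr0 hr1.le hmk
  refine ⟨(toAbs q E).symm b, fun m => ?_⟩
  have h2 : nrm q ((toAbs q E).symm b - f m) = ‖b - g m‖ := by
    rw [← hnorm, AlgEquiv.apply_symm_apply]
  rw [h2]
  have h3 : Filter.Tendsto (fun k => ‖g k - g m‖) Filter.atTop (nhds ‖b - g m‖) :=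
    (hb.sub_const (g m)).norm
  refine le_of_tendsto h3 (Filter.eventually_atTop.2 ⟨m, fun k hk => ?_⟩)
  show ‖toAbs q E (f k) - toAbs q E (f m)‖ ≤ r ^ m
  rw [hnorm]
  exact hkm m k hk

/-- (m5) Total boundedness of the unit ball of an embedded local field. -/
theorem exists_finite_residues (ε : ℝ) (hε : 0 < ε) :
    ∃ T : Set E, T.Finite ∧ ∀ x : E, nrm q x ≤ 1 → ∃ t ∈ T, nrm q (x - t) < ε := by
  have : ProperSpace (absField q E) := H88.properSpace (absField q E)
  obtain ⟨t, -, htfin, hcov⟩ :=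
    finite_cover_balls_of_compact (isCompact_closedBall (0 : absField q E) 1) hε
  refine ⟨(toAbs q E).symm '' t, htfin.image _, fun x hx => ?_⟩
  have hx' : toAbs q E x ∈ Metric.closedBall (0 : absField q E) 1 := by
    rw [Metric.mem_closedBall, dist_zero_right]
    exact hx
  obtain ⟨y, hy, hxy⟩ := Set.mem_iUnion₂.1 (hcov hx')
  refine ⟨(toAbs q E).symm y, ⟨y, hy, rfl⟩, ?_⟩
  rw [Metric.mem_ball, dist_eq_norm] at hxy
  have h1 : nrm q (x - (toAbs q E).symm y) = ‖toAbs q E x - y‖ := by
    have : toAbs q E x - y = toAbs q E (x - (toAbs q E).symm y) := by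
      rw [map_sub, AlgEquiv.apply_symm_apply]
    rw [this]
    rfl
  rw [h1]
  exact hxy

end Complete

section Main

variable (q)
variable (F : Type) [Field F] [Algebra ℚ_[q] F] [Algebra F (PadicAlgCl q)]
  [IsScalarTower ℚ_[q] F (PadicAlgCl q)] [FiniteDimensional ℚ_[q] F]
variable (L : IntermediateField F (PadicAlgCl q)) [FiniteDimensional F L] [IsGalois F L]

/-- **(U1)** The units of a finite Galois extension `L/F` of embedded local fields contain a
Galois-stable subgroup `V` of finite index with trivial Tate cohomology in degrees `0` and `-1`: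
every Galois-fixed `u ∈ V` is the norm of an element of `V`, and (for `σ` a generator of the
Galois group) every `u ∈ V` of norm `1` is `σ w / w` with `w ∈ V`. -/
theorem exists_unit_subgroup :
    ∃ V : Subgroup Lˣ, V ≤ unitGroup q L ∧ V.relIndex (unitGroup q L) ≠ 0 ∧
      (∀ (g : L ≃ₐ[F] L), ∀ u ∈ V, Units.map (g : L →* L) u ∈ V) ∧
      (∀ u ∈ V, (∀ g : L ≃ₐ[F] L, g (u : L) = u) →
        ∃ w ∈ V, algebraMap F L (Algebra.norm F (w : L)) = u) ∧
      (∀ σ : L ≃ₐ[F] L, (∀ g : L ≃ₐ[F] L, g ∈ Subgroup.zpowers σ) →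
        ∀ u ∈ V, Algebra.norm F (u : L) = 1 → ∃ w ∈ V, σ (w : L) / (w : L) = u) := by
  obtain ⟨π, hπ0, hπ1, -⟩ := leafUnif q F
  set r : ℝ := nrm q π with hr
  have hr0 : 0 < r := lt_of_le_of_ne (nrm_nonneg π) (fun h => hπ0 (nrm_eq_zero.1 h.symm))
  have hmem : ∀ x : L, x ∈ (intRing q L).toSubring ↔ nrm q x ≤ 1 := fun x => mem_intRing_iff q L x
  have hπL : ∀ k : ℕ, nrm q (algebraMap F L π ^ k) = r ^ k := fun k => by
    rw [nrm_pow, nrm_algebraMap]
  have hπLne : ∀ k : ℕ, algebraMap F L π ^ k ≠ 0 := fun k =>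
    pow_ne_zero k (by simpa using hπ0)
  obtain ⟨V, hVidx, hVO, hVg, ha, hb⟩ :=
    H69.exists_unit_subgroup_of_galois_of_residues (F := F) (L := L) (intRing q L).toSubring π hπ0
      ((hmem _).2 (by rw [nrm_algebraMap]; exact hπ1.le))
      (fun g x hx => (hmem _).2 (by rw [nrm_algEquiv]; exact (hmem _).1 hx))
      (fun x => by
        obtain ⟨k, hk⟩ : ∃ k : ℕ, r ^ k * nrm q x ≤ 1 := by
          rcases eq_or_ne (nrm q x) 0 with h0 | h0
          · exact ⟨0, by rw [h0]; simp⟩
          · have hpos : 0 < nrm q x := lt_of_le_of_ne (nrm_nonneg x) (Ne.symm h0)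
            obtain ⟨k, hk⟩ := exists_pow_lt_of_lt_one (inv_pos.2 hpos) hπ1
            refine ⟨k, ?_⟩
            have := mul_le_mul_of_nonneg_right hk.le hpos.le
            rwa [inv_mul_cancel₀ h0] at this
        exact ⟨k, (hmem _).2 (by rw [nrm_mul, hπL]; exact hk)⟩)
      (fun y hy => by
        have hy' : ∀ k, nrm q (y k) ≤ 1 := fun k => (hmem _).1 (hy k)
        let s : ℕ → L := fun k => ∑ j ∈ Finset.range k, algebraMap F L π ^ j * y j
        have hs : ∀ m, nrm q (s (m + 1) - s m) ≤ r ^ m := by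
          intro m
          have : s (m + 1) - s m = algebraMap F L π ^ m * y m := by
            simp only [s, Finset.sum_range_succ, add_sub_cancel_left]
          rw [this, nrm_mul, hπL]
          exact mul_le_of_le_one_right (pow_nonneg hr0.le m) (hy' m)
        obtain ⟨z, hz⟩ := exists_limit (q := q) L s r hr0.le hπ1 hs
        refine ⟨z, (hmem _).2 ?_, fun k => ?_⟩
        · have := hz 0
          simpa [s] using this
        · refine ⟨(z - s k) / algebraMap F L π ^ k, (hmem _).2 ?_, ?_⟩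
          · rw [div_eq_mul_inv, nrm_mul, nrm_inv, hπL]
            rw [← div_eq_mul_inv, div_le_one (pow_pos hr0 k)]
            exact hz k
          · rw [mul_div_cancel₀ _ (hπLne k)])
      (fun z _ hz => by
        rw [← nrm_eq_zero (q := q)]
        by_contra hne
        have hpos : 0 < nrm q z := lt_of_le_of_ne (nrm_nonneg z) (Ne.symm hne)
        obtain ⟨k, hk⟩ := exists_pow_lt_of_lt_one hpos hπ1
        obtain ⟨c, hc, rfl⟩ := hz k
        rw [nrm_mul, hπL] at hk
        have : r ^ k * nrm q c ≤ r ^ k :=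
          mul_le_of_le_one_right (pow_nonneg hr0.le k) ((hmem _).1 hc)
        linarith)
      (fun M => by
        obtain ⟨T, hT, hTcov⟩ := exists_finite_residues (q := q) L (r ^ M) (pow_pos hr0 M)
        refine ⟨T, hT, fun x hx => ?_⟩
        obtain ⟨t, ht, hxt⟩ := hTcov x ((hmem _).1 hx)
        refine ⟨t, ht, (x - t) / algebraMap F L π ^ M, (hmem _).2 ?_, ?_⟩
        · rw [div_eq_mul_inv, nrm_mul, nrm_inv, hπL, ← div_eq_mul_inv, div_le_one (pow_pos hr0 M)]
          exact hxt.le
        · rw [mul_div_cancel₀ _ (hπLne M)]; ring)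
      (unitGroup q L)
      (fun u hu => by
        have hu1 : nrm q (u : L) = 1 := hu
        refine ⟨(hmem _).2 hu1.le, (hmem _).2 ?_⟩
        rw [Units.val_inv_eq_inv_val, nrm_inv, hu1, inv_one])
  refine ⟨V, fun u hu => ?_, hVidx, hVg, ha, hb⟩
  obtain ⟨h1, h2⟩ := hVO u hu
  have h1' : nrm q (u : L) ≤ 1 := (hmem _).1 h1
  have h2' : nrm q ((u⁻¹ : Lˣ) : L) ≤ 1 := (hmem _).1 h2
  rw [Units.val_inv_eq_inv_val, nrm_inv] at h2'
  have hpos : 0 < nrm q (u : L) :=
    lt_of_le_of_ne (nrm_nonneg _) (fun h => u.ne_zero (nrm_eq_zero.1 h.symm))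
  have h3 : 1 ≤ nrm q (u : L) := by
    rwa [inv_le_one₀ hpos] at h2'
  exact le_antisymm h1' h3

end Main

end Fermat.Agent.S55.H17
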